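/-
Programme MS (S12), area TOP (helper3): **the one-direction bridge from the Prelude's zero
component to the valuation-theoretic `E⁰`** (item (iii) of the bad-`q` half of `ThetaOutProp`).

For a place `A` of `ℚ̄` at which a model of the Frey curve has the node shape, a point of
`P.freyCurveInt` lying in the zero component at `A` (Prelude: `InZeroComponentAt`) does not
reduce to the node:

* `val_partials_lt_one_of_nodeShape` : on a node-shaped curve, a point with `v x < 1` has both
  partial derivatives of valuation `< 1`;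
* **`mem_E0sub_of_inZero`** : (`v 2 = 1`, any root `t` with `v t ≤ 1`)
  `P.freyCurveInt.InZeroComponentAt A (toInt P Q) → Q ∈ FreyAtP2.E0sub P ht ha hb hW`;
* **`inE0_of_inZero`** : (the Frey curve itself node-shaped at `A`, e.g. over `2`)
  `P.freyCurveInt.InZeroComponentAt A (toInt P Q) → Node.InE0 A.valuation Q`;
* `symm_mem_E0sub_of_inZero`, `symm_inE0_of_inZero` : the same for a point `x` of the integral model
  (conclusion about `(toInt P).symm x`).
-/
import Mathlib
import Fermat.Agent.MS.GLUE.FreyPts4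
import Fermat.Agent.MS.LOC.InertiaZero5
import Fermat.Agent.MS.LOCP.FreyAtP2
import Fermat.Agent.S13.FreyAtTwo

set_option autoImplicit false
set_option linter.unusedSectionVars false
set_option linter.unusedVariables false
set_option linter.style.longLine false

open WeierstrassCurve WeierstrassCurve.Affine WeierstrassCurve.Affine.Point

namespace Fermat.Agent.MS.TOP.BridgeE03

open Fermat.Agent.S05 Fermat.Agent.S05.FreyTransport Fermat.Agent.S13
open Fermat.Agent.S13.Closeness
open Fermat.Agent.MS.GLUE.FreyPts4 Fermat.Agent.MS.LOC.FreyInt2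

local notation "Qb" => AlgebraicClosure ℚ

/-! ### node-shaped curves: the partials at a point reducing to the node -/

section Generic

variable {K : Type*} [Field K] {Γ₀ : Type*} [LinearOrderedCommGroupWithZero Γ₀]
  {v : Valuation K Γ₀} {W : Affine K}

/-- on a node-shaped curve, a point with `v x < 1` has `v y < 1`. -/
theorem val_y_lt_one_of_nodeShape (hW : Node.NodeShape v W) {x y : K}
    (heq : W.Equation x y) (hx : v x < 1) : v y < 1 := by
  rw [Affine.equation_iff, hW.a₃, hW.a₆] at heq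
  by_contra hy
  rw [not_lt] at hy
  have h1 : v (W.a₁ * x) < 1 := by
    rw [map_mul]
    calc v W.a₁ * v x ≤ 1 * v x := mul_le_mul_left hW.a₁ _
      _ = v x := one_mul _
      _ < 1 := hx
  have h2 : v (y + W.a₁ * x) = v y :=
    Valuation.map_add_eq_of_lt_left v (lt_of_lt_of_le h1 hy)
  have h3 : y * (y + W.a₁ * x) = x * (x ^ 2 + W.a₂ * x + W.a₄) := by
    linear_combination heq
  have h4 : v (x ^ 2 + W.a₂ * x + W.a₄) ≤ 1 := by
    refine Valuation.map_add_le v (Valuation.map_add_le v ?_ ?_) hW.a₄.le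
    · rw [map_pow]; exact pow_le_one' hx.le 2
    · rw [map_mul]; exact mul_le_one' hW.a₂ hx.le
  have h5 : v (y * (y + W.a₁ * x)) < 1 := by
    rw [h3, map_mul]
    calc v x * v (x ^ 2 + W.a₂ * x + W.a₄) ≤ v x * 1 := mul_le_mul_right h4 _
      _ = v x := mul_one _
      _ < 1 := hx
  rw [map_mul, h2] at h5
  exact absurd h5 (not_lt.mpr (one_le_mul_of_one_le_of_one_le hy hy))

/-- on a node-shaped curve, a point with `v x < 1` has both partials of valuation `< 1`. -/
theorem val_partials_lt_one_of_nodeShape (hW : Node.NodeShape v W) (h2 : v (2 : K) ≤ 1)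
    (h3 : v (3 : K) ≤ 1) {x y : K} (heq : W.Equation x y) (hx : v x < 1) :
    v (WX W x y) < 1 ∧ v (WY W x y) < 1 := by
  have hy := val_y_lt_one_of_nodeShape hW heq hx
  have lt_of_mul : ∀ {c z : K}, v c ≤ 1 → v z < 1 → v (c * z) < 1 := by
    intro c z hc hz
    rw [map_mul]
    calc v c * v z ≤ 1 * v z := mul_le_mul_left hc _
      _ = v z := one_mul _
      _ < 1 := hz
  constructor
  · unfold WX
    refine Valuation.map_sub_lt v (Valuation.map_sub_lt v (Valuation.map_sub_lt v ?_ ?_) ?_)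
      hW.a₄
    · exact lt_of_mul hW.a₁ hy
    · refine lt_of_mul h3 ?_
      rw [map_pow, sq]
      calc v x * v x ≤ 1 * v x := mul_le_mul_left hx.le _
        _ = v x := one_mul _
        _ < 1 := hx
    · rw [mul_assoc]
      exact lt_of_mul h2 (lt_of_mul hW.a₂ hx)
  · unfold WY
    rw [hW.a₃, add_zero]
    exact Valuation.map_add_lt v (lt_of_mul h2 hy) (lt_of_mul hW.a₁ hx)

end Generic

/-! ### the coefficients of the integral Frey model over `ℚ̄` -/

section Coeffs

variable (P : FreyPackage)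

theorem a₁_int : ((P.freyCurveInt.map (Int.castRingHom ℚ))⁄Qb).a₁ = 1 := by
  rw [map_freyCurveInt P]; exact FreyE1.frey_a₁ P

theorem a₃_int : ((P.freyCurveInt.map (Int.castRingHom ℚ))⁄Qb).a₃ = 0 := by
  rw [map_freyCurveInt P]; exact FreyE1.frey_a₃ P

theorem four_mul_a₂_int :
    4 * ((P.freyCurveInt.map (Int.castRingHom ℚ))⁄Qb).a₂ = cB P - 1 - cA P := by
  rw [Fermat.Agent.ES.EC.TorsionLift20.baseChange_eq_map P.freyCurveInt]
  have h := congrArg (Int.cast : ℤ → Qb) (four_mul_a₂ P)
  push_cast at h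
  show 4 * (Int.castRingHom Qb) P.freyCurveInt.a₂ = cB P - 1 - cA P
  rw [eq_intCast, h]
  rfl

theorem sixteen_mul_a₄_int :
    16 * ((P.freyCurveInt.map (Int.castRingHom ℚ))⁄Qb).a₄ = -(cA P * cB P) := by
  rw [Fermat.Agent.ES.EC.TorsionLift20.baseChange_eq_map P.freyCurveInt]
  have h := congrArg (Int.cast : ℤ → Qb) (sixteen_mul_a₄ P)
  push_cast at h
  show 16 * (Int.castRingHom Qb) P.freyCurveInt.a₄ = -(cA P * cB P)
  rw [eq_intCast, h]
  show -((P.a : Qb) ^ P.p) * (P.b : Qb) ^ P.p = -((P.a : Qb) ^ P.p * (P.b : Qb) ^ P.p)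
  ring

/-- `16 ∂F/∂x` of the Frey model in the coordinates of `Wab a b`. -/
theorem sixteen_mul_WX {t a b : Qb} (ha : a = 3 * t + cB P - cA P)
    (hb : b = 3 * t ^ 2 + 2 * (cB P - cA P) * t - cA P * cB P) (x₀ y₀ : Qb) :
    16 * WX ((P.freyCurveInt.map (Int.castRingHom ℚ))⁄Qb) x₀ y₀ =
      WY (Wab a b).toAffine (4 * x₀ - t) (8 * y₀ + 4 * x₀) +
        WX (Wab a b).toAffine (4 * x₀ - t) (8 * y₀ + 4 * x₀) := by
  have h2 := four_mul_a₂_int P
  have h4 := sixteen_mul_a₄_int P
  simp only [WX, WY, a₁_int, Wab_a₁, Wab_a₂, Wab_a₃, Wab_a₄]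
  rw [ha, hb]
  linear_combination (-8 * x₀) * h2 - h4

/-- `4 ∂F/∂y` of the Frey model in the coordinates of `Wab a b`. -/
theorem four_mul_WY (t : Qb) (x₀ y₀ : Qb) :
    4 * WY ((P.freyCurveInt.map (Int.castRingHom ℚ))⁄Qb) x₀ y₀ = 8 * y₀ + 4 * x₀ := by
  simp only [WY, a₁_int, a₃_int]
  ring

end Coeffs

/-! ### the bridges -/

section Bridge

variable (P : FreyPackage) {A : ValuationSubring Qb}

/-- **the bridge in a transported model** (`A` over an odd prime; `t` any integral root). -/
theorem mem_E0sub_of_inZero (h2 : A.valuation (2 : Qb) = 1) {t a b : Qb}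
    (ht : t * (t - cA P) * (t + cB P) = 0) (ha : a = 3 * t + cB P - cA P)
    (hb : b = 3 * t ^ 2 + 2 * (cB P - cA P) * t - cA P * cB P)
    (hW : Node.NodeShape A.valuation (Wab a b).toAffine) (hvt : A.valuation t ≤ 1)
    (Q : (P.freyCurve⁄Qb).Point)
    (hz : P.freyCurveInt.InZeroComponentAt A (toInt P Q)) :
    Q ∈ Fermat.Agent.MS.LOCP.FreyAtP2.E0sub P ht ha hb hW := by
  have h4 : A.valuation (4 : Qb) = 1 := by
    rw [show (4 : Qb) = 2 * 2 by norm_num, map_mul, h2, mul_one]
  have h8 : A.valuation (8 : Qb) = 1 := by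
    rw [show (8 : Qb) = 2 * 4 by norm_num, map_mul, h2, h4, mul_one]
  have h16 : A.valuation (16 : Qb) = 1 := by
    rw [show (16 : Qb) = 4 * 4 by norm_num, map_mul, h4, mul_one]
  have h3 : A.valuation (3 : Qb) ≤ 1 := by
    have := Inertia.valuation_intCast_le_one (A := A) (3 : ℤ)
    rwa [Int.cast_ofNat] at this
  rcases Q with _ | ⟨x₀, y₀, h₀⟩
  · exact (Fermat.Agent.MS.LOCP.FreyAtP2.E0sub P ht ha hb hW).zero_mem
  · obtain ⟨h1, e1⟩ := freyEquiv_some P ht ha hb h₀
    rw [Fermat.Agent.MS.LOCP.FreyAtP2.mem_E0sub, e1, Node.inE0_some]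
    by_contra hlt
    rw [not_le] at hlt
    -- `x₀` is integral
    have hx : A.valuation x₀ ≤ 1 := by
      have h5 : A.valuation (4 * x₀) ≤ 1 := by
        have : 4 * x₀ = (4 * x₀ - t) + t := by ring
        rw [this]
        exact Valuation.map_add_le _ hlt.le hvt
      rwa [map_mul, h4, one_mul] at h5
    -- the partials of the Frey model at `(x₀, y₀)` are non-units
    obtain ⟨hWX, hWY⟩ := val_partials_lt_one_of_nodeShape hW h2.le h3 h1.1 hlt
    have hY : A.valuation (8 * y₀ + 4 * x₀) < 1 := val_y_lt_one_of_nodeShape hW h1.1 hlt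
    have hpX : A.valuation (WX ((P.freyCurveInt.map (Int.castRingHom ℚ))⁄Qb) x₀ y₀) < 1 := by
      have h6 : A.valuation (16 * WX ((P.freyCurveInt.map (Int.castRingHom ℚ))⁄Qb) x₀ y₀) < 1 := by
        rw [sixteen_mul_WX P ha hb]
        exact Valuation.map_add_lt _ hWY hWX
      rwa [map_mul, h16, one_mul] at h6
    have hpY : A.valuation (WY ((P.freyCurveInt.map (Int.castRingHom ℚ))⁄Qb) x₀ y₀) < 1 := by
      have h6 : A.valuation (4 * WY ((P.freyCurveInt.map (Int.castRingHom ℚ))⁄Qb) x₀ y₀) < 1 := by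
        rw [four_mul_WY P t]
        exact hY
      rwa [map_mul, h4, one_mul] at h6
    -- unfold the zero component
    obtain ⟨h', e'⟩ := toInt_some P h₀
    rw [e'] at hz
    rcases hz with h0 | ⟨x, y, h, he, hcase⟩
    · exact Point.some_ne_zero _ h0
    · obtain ⟨rfl, rfl⟩ := Point.some.inj he
      rcases hcase with hnot | ⟨hx', hy', hns⟩
      · exact hnot ((A.valuation_le_one_iff _).mp hx)
      · rcases Fermat.Agent.MS.LOC.InertiaZero5.unit_partial_of_residue_nonsingular
          P.freyCurveInt A hx' hy' hns with hu | hu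
        · exact absurd hu (ne_of_lt hpX)
        · exact absurd hu (ne_of_lt hpY)

/-- **the bridge on the Frey curve itself** (node-shaped at `A`, e.g. `A` over `2`). -/
theorem inE0_of_inZero (hW : Node.NodeShape A.valuation (P.freyCurve⁄Qb))
    (Q : (P.freyCurve⁄Qb).Point)
    (hz : P.freyCurveInt.InZeroComponentAt A (toInt P Q)) :
    Node.InE0 A.valuation Q := by
  have h2 : A.valuation (2 : Qb) ≤ 1 := by
    have := Inertia.valuation_intCast_le_one (A := A) (2 : ℤ)
    rwa [Int.cast_ofNat] at this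
  have h3 : A.valuation (3 : Qb) ≤ 1 := by
    have := Inertia.valuation_intCast_le_one (A := A) (3 : ℤ)
    rwa [Int.cast_ofNat] at this
  rcases Q with _ | ⟨x₀, y₀, h₀⟩
  · exact Node.inE0_zero
  · rw [Node.inE0_some]
    by_contra hlt
    rw [not_le] at hlt
    obtain ⟨hWX, hWY⟩ := val_partials_lt_one_of_nodeShape hW h2 h3 h₀.1 hlt
    obtain ⟨h', e'⟩ := toInt_some P h₀
    rw [e'] at hz
    rcases hz with h0 | ⟨x, y, h, he, hcase⟩
    · exact Point.some_ne_zero _ h0
    · obtain ⟨rfl, rfl⟩ := Point.some.inj he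
      rcases hcase with hnot | ⟨hx', hy', hns⟩
      · exact hnot ((A.valuation_le_one_iff _).mp hlt.le)
      · have hu := Fermat.Agent.MS.LOC.InertiaZero5.unit_partial_of_residue_nonsingular
          P.freyCurveInt A hx' hy' hns
        rw [map_freyCurveInt P] at hu
        rcases hu with hu | hu
        · exact absurd hu (ne_of_lt hWX)
        · exact absurd hu (ne_of_lt hWY)

/-- `mem_E0sub_of_inZero` for a point of the integral model. -/
theorem symm_mem_E0sub_of_inZero (h2 : A.valuation (2 : Qb) = 1) {t a b : Qb}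
    (ht : t * (t - cA P) * (t + cB P) = 0) (ha : a = 3 * t + cB P - cA P)
    (hb : b = 3 * t ^ 2 + 2 * (cB P - cA P) * t - cA P * cB P)
    (hW : Node.NodeShape A.valuation (Wab a b).toAffine) (hvt : A.valuation t ≤ 1)
    (x : ((P.freyCurveInt.map (Int.castRingHom ℚ))⁄Qb).Point)
    (hz : P.freyCurveInt.InZeroComponentAt A x) :
    (toInt P).symm x ∈ Fermat.Agent.MS.LOCP.FreyAtP2.E0sub P ht ha hb hW :=
  mem_E0sub_of_inZero P h2 ht ha hb hW hvt _ (by rwa [AddEquiv.apply_symm_apply])

/-- `inE0_of_inZero` for a point of the integral model. -/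
theorem symm_inE0_of_inZero (hW : Node.NodeShape A.valuation (P.freyCurve⁄Qb))
    (x : ((P.freyCurveInt.map (Int.castRingHom ℚ))⁄Qb).Point)
    (hz : P.freyCurveInt.InZeroComponentAt A x) :
    Node.InE0 A.valuation ((toInt P).symm x) :=
  inE0_of_inZero P hW _ (by rwa [AddEquiv.apply_symm_apply])

end Bridge

end Fermat.Agent.MS.TOP.BridgeE03
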