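/-
Programme MS (S12), area TOP (helper7): **discharge of `Assemble8.BaseCanProp` for the Frey curve.**

A cofixed stable line `N ⊂ E[p]` (`p ≥ 17`) of a semistable integral model `W`, multiplicative at `2` and `3`,
lies in the zero component at every place over every bad prime `ℓ ≠ p`:

* `ℓ ∈ {2, 3}` or `2ℓ - 1 < p` : `CAN/Base7.inZero_of_cofixed` (a Frobenius-fixed point of order `p` in `E⁰_A`
  would force `p ≤ 2ℓ ± 1`);
* `p ≤ 2ℓ - 1` : `PLACE/CanAll1.canAt_of_small` with `k = 0` (the S15 core).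

* `card_lineSub` : a proper nonzero submodule of `E[p]` has `p` elements;
* `baseCan_of_mult23` : the statement for a general `W`;
* **`baseCanProp`** : `BaseCanProp P.freyCurveInt P.p` (uses the cofixed line of `P.freyCurve` only through
  `GLUE/SmallPrimes4.three_dvd_abc`).
-/
import Mathlib
import Fermat.Agent.MS.STEP.Assemble8
import Fermat.Agent.MS.CAN.Base7
import Fermat.Agent.MS.PLACE.CanAll1
import Fermat.Agent.MS.GLUE.SmallPrimes4

set_option autoImplicit false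
set_option linter.unusedSectionVars false
set_option linter.unusedVariables false
set_option linter.style.longLine false
set_option linter.style.haveILetI false

open WeierstrassCurve WeierstrassCurve.Affine WeierstrassCurve.Affine.Point

namespace Fermat.Agent.MS.TOP.InBase7

open Fermat.Agent.MS.STEP.StepAlg8 Fermat.Agent.MS.STEP.CofStep8 Fermat.Agent.MS.STEP.Assemble8

local notation "Qbar" => AlgebraicClosure ℚ
local notation "GQ" => (AlgebraicClosure ℚ ≃ₐ[ℚ] AlgebraicClosure ℚ)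

section Card

variable {E : WeierstrassCurve ℚ} {p : ℕ} [hpF : Fact p.Prime]

/-- a proper nonzero submodule of `E[p]` has exactly `p` elements. -/
theorem card_lineSub (hΔ : (E⁄Qbar).Δ ≠ 0) (h3 : 3 ≤ p)
    (N : Submodule (ZMod p) (Submodule.torsionBy ℤ (E⁄Qbar).Point p))
    (hbot : N ≠ ⊥) (htop : N ≠ ⊤) : Nat.card ↥(lineSub N) = p := by
  have hp : p.Prime := hpF.out
  have hfinT : Finite ↥(tors (EPtG E) p) := by
    have := finite_tors_powG E p hΔ h3 1
    rwa [pow_one] at this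
  have hle := lineSub_le_tors N
  have hcardT := card_tors_pG E p hΔ h3
  have hdvd : Nat.card ↥(lineSub N) ∣ p ^ 2 := by
    rw [← hcardT]
    exact AddSubgroup.card_dvd_of_le hle
  obtain ⟨j, hj, hcard⟩ := (Nat.dvd_prime_pow hp).1 hdvd
  have hfinK : Finite ↥(lineSub N) := Finite.of_injective
    (fun x : ↥(lineSub N) => (⟨x.1, hle x.2⟩ : ↥(tors (EPtG E) p)))
    (fun a b h => Subtype.ext (congrArg (fun z : ↥(tors (EPtG E) p) => (z : EPtG E)) h))
  have hj1 : j = 1 := by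
    have h0 : j ≠ 0 := by
      rintro rfl
      rw [pow_zero] at hcard
      apply hbot
      rw [eq_bot_iff]
      intro x hx
      have hxK : (x : EPtG E) ∈ lineSub N := mem_lineSub.2 ⟨x.2, hx⟩
      haveI : Subsingleton ↥(lineSub N) := (Nat.card_eq_one_iff_unique.1 hcard).1
      have : (⟨(x : EPtG E), hxK⟩ : ↥(lineSub N)) = 0 := Subsingleton.elim _ _
      have hx0 : (x : EPtG E) = 0 := congrArg Subtype.val this
      exact (Submodule.mem_bot _).2 (Subtype.ext hx0)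
    have h2 : j ≠ 2 := by
      rintro rfl
      apply htop
      have heq : lineSub N = tors (EPtG E) p :=
        AddSubgroup.eq_of_le_of_card_ge hle (by rw [hcard, hcardT])
      rw [eq_top_iff]
      intro x _
      have hxT : (x : EPtG E) ∈ tors (EPtG E) p := (mem_torsionBy_iff_mem_torsG E p _).1 x.2
      rw [← heq] at hxT
      obtain ⟨h, hx⟩ := mem_lineSub.1 hxT
      exact hx
    omega
  subst hj1
  rw [pow_one] at hcard
  exact hcard

end Card

/-- **base canonicity for a semistable model multiplicative at `2` and `3`.** -/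
theorem baseCan_of_mult23 (W : WeierstrassCurve ℤ) {p : ℕ} [hpF : Fact p.Prime] (hp17 : 17 ≤ p)
    (hΔ0 : W.Δ ≠ 0) (hΔQ : ((QC W)⁄Qbar).Δ ≠ 0)
    (hss : ∀ ℓ : ℕ, ℓ.Prime → (ℓ : ℤ) ∣ W.Δ → ¬ (ℓ : ℤ) ∣ W.c₄)
    (h2Δ : (2 : ℤ) ∣ W.Δ) (h3Δ : (3 : ℤ) ∣ W.Δ) : BaseCanProp W p := by
  have hp : p.Prime := hpF.out
  haveI : NeZero p := ⟨hp.ne_zero⟩
  have h3 : 3 ≤ p := by omega
  have hp5 : 5 ≤ p := by omega
  have hp' : p ∉ ({2, 3, 5, 7, 13} : Finset ℕ) := by
    simp only [Finset.mem_insert, Finset.mem_singleton, not_or]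
    omega
  intro N hstab hbot htop hcof ℓ hℓ hℓp hℓΔ A hA x hx
  have hKcard := card_lineSub hΔQ h3 N hbot htop
  -- cofixedness of the subgroup
  have hcofK : ∀ σ : GQ, ∀ y : EPtG (QC W), p • y = 0 → σ • y - y ∈ lineSub N := by
    intro σ y hy
    have hyT : y ∈ Submodule.torsionBy ℤ ((QC W)⁄Qbar).Point (p : ℤ) :=
      (mem_torsionBy_iff_mem_torsG (QC W) p y).2 (mem_tors.2 hy)
    have := hcof σ ⟨y, hyT⟩
    exact mem_lineSub.2 ⟨(σ • (⟨y, hyT⟩ : Submodule.torsionBy ℤ ((QC W)⁄Qbar).Point (p : ℤ)) -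
      ⟨y, hyT⟩).2, this⟩
  -- a generator
  obtain ⟨x₀, hx₀N, hx₀0⟩ := (Submodule.ne_bot_iff N).1 hbot
  have hyK : (x₀ : EPtG (QC W)) ∈ lineSub N := mem_lineSub.2 ⟨x₀.2, hx₀N⟩
  have hy0 : (x₀ : EPtG (QC W)) ≠ 0 := fun h => hx₀0 (Subtype.ext h)
  have hpy : p • (x₀ : EPtG (QC W)) = 0 := mem_tors.1 (lineSub_le_tors N hyK)
  have hord : addOrderOf (x₀ : EPtG (QC W)) = p := addOrderOf_eq_prime hpy hy0
  haveI : Finite ↥(lineSub N) := Nat.finite_of_card_ne_zero (by rw [hKcard]; exact hp.ne_zero)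
  have hKeq : lineSub N = AddSubgroup.zmultiples (x₀ : EPtG (QC W)) := by
    symm
    refine AddSubgroup.eq_of_le_of_card_ge (AddSubgroup.zmultiples_le.2 hyK) ?_
    rw [hKcard, Nat.card_zmultiples, hord]
  have hstab' : ∀ σ : GQ, σ • (x₀ : EPtG (QC W)) ∈ AddSubgroup.zmultiples (x₀ : EPtG (QC W)) := by
    intro σ
    rw [← hKeq]
    have := hstab σ _ hx₀N
    exact mem_lineSub.2 ⟨(σ • x₀).2, this⟩
  -- canonicity at the small primes
  have hsmall : ∀ ℓ' : ℕ, ℓ'.Prime → ℓ' ≠ p → (ℓ' : ℤ) ∣ W.Δ → ¬ (ℓ' : ℤ) ∣ W.c₄ →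
      (ℓ' = 2 ∨ ℓ' = 3 ∨ 2 * ℓ' - 1 < p) → ∀ A' : ValuationSubring Qbar, A'.LiesOverPrime ℓ' →
        W.InZeroComponentAt A' (x₀ : EPtG (QC W)) := by
    intro ℓ' hℓ' hℓ'p hℓ'Δ hℓ'c hs A' hA'
    have hbig : 2 * ℓ' + 1 < p ∨ (ℓ' ≠ 2 ∧ 2 * ℓ' - 1 < p) := by
      rcases hs with rfl | rfl | hlt
      · left; omega
      · right; exact ⟨by norm_num, by omega⟩
      · by_cases h2 : ℓ' = 2
        · left; subst h2; omega
        · right; exact ⟨h2, hlt⟩
    exact Fermat.Agent.MS.CAN.Base7.inZero_of_cofixed hℓ' hΔ0 hℓ'Δ hℓ'c hA' hp hp5 hℓ'p hbig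
      (lineSub N) hKcard hcofK _ hyK
  have hall := Fermat.Agent.MS.PLACE.CanAll1.canAt_of_small hp hp' W hΔ0 h2Δ
    (by exact_mod_cast hss 2 Nat.prime_two (by exact_mod_cast h2Δ)) h3Δ
    (by exact_mod_cast hss 3 Nat.prime_three (by exact_mod_cast h3Δ)) 0
    (x₀ : EPtG (QC W)) (by rw [hord, zero_add, pow_one]) hstab' hsmall
  refine hall ℓ hℓ hℓp hℓΔ (hss ℓ hℓ hℓΔ) A hA _ ?_
  rw [← hKeq]
  exact mem_lineSub.2 ⟨x.2, hx⟩

/-- **`BaseCanProp` for the Frey curve.** -/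
theorem baseCanProp (P : FreyPackage) (hp : 17 ≤ P.p)
    (hline : HasGaloisStableCofixedLine (K := Qbar) ℚ P.freyCurve P.p) :
    BaseCanProp P.freyCurveInt P.p := by
  have e : QC P.freyCurveInt = P.freyCurve := Fermat.Agent.MS.LOC.FreyInt2.map_freyCurveInt P
  have hΔQ : ((QC P.freyCurveInt)⁄Qbar).Δ ≠ 0 := by
    rw [e]
    exact Fermat.Agent.S13.FreyDelta.freyCurve_baseChange_Δ_ne_zero P Qbar
  have h3abc := Fermat.Agent.MS.GLUE.SmallPrimes4.three_dvd_abc P hp hline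
  refine baseCan_of_mult23 P.freyCurveInt hp (Fermat.Agent.MS.LOC.FreyInt2.Δ_ne_zero P) hΔQ
    (fun ℓ hℓ hΔ => Fermat.Agent.MS.LOC.FreyInt2.not_dvd_c₄ P hℓ
      ((Fermat.Agent.MS.LOC.FreyInt2.dvd_Δ_iff P hℓ).mp hΔ))
    (Fermat.Agent.MS.LOC.FreyInt2.two_dvd_Δ P) ?_
  have := (Fermat.Agent.MS.LOC.FreyInt2.dvd_Δ_iff P Nat.prime_three).mpr (by exact_mod_cast h3abc)
  exact_mod_cast this

end Fermat.Agent.MS.TOP.InBase7
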