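/-
Programme MS (S12), area TOP (helper3): **the good-prime half of `Assemble8.ThetaOutProp`.**

For an integral Weierstrass model `W`, an odd prime `p`, a prime `q ≠ p` of GOOD reduction
(`q ∤ Δ_W`), a place `A` of `ℚ̄` over `q` and `σ` in the inertia group of `A`: `σ` fixes all of
`E[p^(k+1)]`, so `σ • x - x = 0` lies in every subgroup (in particular in `D.next C'`).

* `smul_sub_self_eq_zero_good` : `σ • x - x = 0` for `p ^ j • x = 0`;
* **`thetaOut_good`** : the good-`q` instance of the conclusion of `Assemble8.ThetaOutProp W p`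
  (for any `W`, any odd prime `p`);
* `thetaOutProp_of_bad` : `ThetaOutProp W p` from its bad-`q` instances;
* `thetaOut_good_frey`, `thetaOutProp_frey_of_bad` : the same for `W := P.freyCurveInt`, `p := P.p`.
-/
import Mathlib
import Fermat.Agent.MS.STEP.Assemble8
import Fermat.Agent.MS.LOC.InertiaZero5

set_option autoImplicit false
set_option linter.unusedSectionVars false
set_option linter.unusedVariables false
set_option linter.style.longLine false

open WeierstrassCurve WeierstrassCurve.Affine WeierstrassCurve.Affine.Point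

namespace Fermat.Agent.MS.TOP.InThetaGood3

open Fermat.Agent.MS.STEP.StepAlg8 Fermat.Agent.MS.STEP.CofStep8 Fermat.Agent.MS.STEP.Assemble8

local notation "Qbar" => AlgebraicClosure ℚ
local notation "GQ" => (AlgebraicClosure ℚ ≃ₐ[ℚ] AlgebraicClosure ℚ)

/-- an odd prime power is odd. -/
theorem odd_prime_pow {p : ℕ} (hp : p.Prime) (hp2 : p ≠ 2) (j : ℕ) : Odd (p ^ j) :=
  (hp.odd_of_ne_two hp2).pow

/-- a prime `q ≠ p` does not divide a power of the prime `p`. -/
theorem not_dvd_prime_pow {p q : ℕ} (hp : p.Prime) (hq : q.Prime) (hqp : q ≠ p) (j : ℕ) :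
    ¬ q ∣ p ^ j := fun h =>
  hqp ((Nat.prime_dvd_prime_iff_eq hq hp).mp (hq.dvd_of_dvd_pow h))

/-- inertia at a good prime `q ≠ p` fixes the `p`-power torsion (`p` odd). -/
theorem smul_sub_self_eq_zero_good (W : WeierstrassCurve ℤ) {p : ℕ} (hp : p.Prime) (hp2 : p ≠ 2)
    {q : ℕ} (hq : q.Prime) (hqp : q ≠ p) (hgood : ¬ (q : ℤ) ∣ W.Δ)
    {A : ValuationSubring Qbar} (hA : A.LiesOverPrime q) {σ : GQ}
    (hσ : σ ∈ A.inertiaSubgroupIn ℚ) (j : ℕ) (x : EPtG (QC W)) (hx : p ^ j • x = 0) :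
    σ • x - x = 0 := by
  have h := Fermat.Agent.MS.LOC.InertiaZero5.inertia_fix_good W hq hgood
    (odd_prime_pow hp hp2 j) (not_dvd_prime_pow hp hq hqp j) hA hσ x hx
  rw [h, sub_self]

section Gen

variable (W : WeierstrassCurve ℤ) (p : ℕ) [hpF : Fact p.Prime]

/-- **the good-`q` instance of (L3) away from `p`.** -/
theorem thetaOut_good (hp2 : p ≠ 2) (k : ℕ) (D : CofG (QC W) p k) (C' : Submodule (ZMod p) D.V)
    {q : ℕ} (hq : q.Prime) (hqp : q ≠ p) (hgood : ¬ (q : ℤ) ∣ W.Δ)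
    {A : ValuationSubring Qbar} (hA : A.LiesOverPrime q) {σ : GQ}
    (hσ : σ ∈ A.inertiaSubgroupIn ℚ) (x : EPtG (QC W)) (hx : p ^ (k + 1) • x = 0) :
    σ • x - x ∈ D.next C' := by
  rw [smul_sub_self_eq_zero_good W hpF.out hp2 hq hqp hgood hA hσ (k + 1) x hx]
  exact (D.next C').zero_mem

/-- `ThetaOutProp W p` from its instances at the primes `q ≠ p` of BAD reduction. -/
theorem thetaOutProp_of_bad (hp2 : p ≠ 2)
    (hbad : ∀ (k : ℕ) (D : CofG (QC W) p k), 1 ≤ k → ∀ C' : Submodule (ZMod p) D.V,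
      (∀ σ : GQ, ∀ v ∈ C', σ • v ∈ C') → IsCompl D.C C' → CanAtK W p (D.next C') →
      ∀ q : ℕ, q.Prime → q ≠ p → (q : ℤ) ∣ W.Δ →
      ∀ A : ValuationSubring Qbar, A.LiesOverPrime q →
        ∀ σ ∈ A.inertiaSubgroupIn ℚ, ∀ x : EPtG (QC W), p ^ (k + 1) • x = 0 →
          σ • x - x ∈ D.next C') :
    ThetaOutProp W p := by
  intro k D hk C' hC' hcompl hcan q hq hqp A hA σ hσ x hx
  by_cases hΔ : (q : ℤ) ∣ W.Δ
  · exact hbad k D hk C' hC' hcompl hcan q hq hqp hΔ A hA σ hσ x hx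
  · exact thetaOut_good W p hp2 k D C' hq hqp hΔ hA hσ x hx

end Gen

section Frey

variable (P : FreyPackage)

/-- the Frey prime is not `2`. -/
theorem frey_p_ne_two : P.p ≠ 2 := by
  have := P.hp5
  omega

/-- **the good-`q` instance of (L3) away from `p` for the Frey curve.** -/
theorem thetaOut_good_frey (k : ℕ) (D : CofG (QC P.freyCurveInt) P.p k)
    (C' : Submodule (ZMod P.p) D.V)
    {q : ℕ} (hq : q.Prime) (hqp : q ≠ P.p) (hgood : ¬ (q : ℤ) ∣ P.freyCurveInt.Δ)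
    {A : ValuationSubring Qbar} (hA : A.LiesOverPrime q) {σ : GQ}
    (hσ : σ ∈ A.inertiaSubgroupIn ℚ) (x : EPtG (QC P.freyCurveInt))
    (hx : P.p ^ (k + 1) • x = 0) :
    σ • x - x ∈ D.next C' :=
  thetaOut_good P.freyCurveInt P.p (frey_p_ne_two P) k D C' hq hqp hgood hA hσ x hx

/-- `ThetaOutProp P.freyCurveInt P.p` from its instances at the bad primes `q ≠ p`. -/
theorem thetaOutProp_frey_of_bad
    (hbad : ∀ (k : ℕ) (D : CofG (QC P.freyCurveInt) P.p k), 1 ≤ k →
      ∀ C' : Submodule (ZMod P.p) D.V,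
      (∀ σ : GQ, ∀ v ∈ C', σ • v ∈ C') → IsCompl D.C C' →
      CanAtK P.freyCurveInt P.p (D.next C') →
      ∀ q : ℕ, q.Prime → q ≠ P.p → (q : ℤ) ∣ P.freyCurveInt.Δ →
      ∀ A : ValuationSubring Qbar, A.LiesOverPrime q →
        ∀ σ ∈ A.inertiaSubgroupIn ℚ, ∀ x : EPtG (QC P.freyCurveInt), P.p ^ (k + 1) • x = 0 →
          σ • x - x ∈ D.next C') :
    ThetaOutProp P.freyCurveInt P.p :=
  thetaOutProp_of_bad P.freyCurveInt P.p (frey_p_ne_two P) hbad

end Frey

end Fermat.Agent.MS.TOP.InThetaGood3
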