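/-
PROGRAMME MS (S12), area TOP (helper2): **the bad-prime half of `Assemble8.ThetaOutProp` for the
Frey curve** (`q ≠ p`, `q ∣ Δ`, i.e. `q ∣ abc`, including `q = 2`).

For a place `A` of `ℚ̄` over such a `q`, let `F` be the valuation-theoretic zero component of the
Frey curve at `A` (`q = 2`: `Node.InE0` on the Frey curve itself; `q` odd: `FreyAtP2.E0sub`, through
the model `Wab a b`).  Then

* (closeness) `σ • Q - Q ∈ F` for `σ` in the inertia group of `A` and `Q` of odd order;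
* `E[p] ⊄ F`;
* (bridge) `InZeroComponentAt A (toInt P Q) → Q ∈ F`.

Hence the cyclic group `D.next C' = ⟨y⟩ ⊆ F` (by `CanAtK` and the bridge) is all of
`F ∩ E[p^(k+1)]` (`CycSub2`), and `σ • x - x ∈ F ∩ E[p^(k+1)] = D.next C'`.

* `thetaOut_of_F` : the abstract glue;
* `thetaOut_bad` : the bad-`q` instances of `ThetaOutProp P.freyCurveInt P.p`;
* `thetaOutProp` : `ThetaOutProp P.freyCurveInt P.p`.
-/
import Mathlib
import Fermat.Agent.MS.LOCP.CycSub2
import Fermat.Agent.MS.LOCP.BridgeZero2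
import Fermat.Agent.MS.LOC.NodeUnipQ2
import Fermat.Agent.MS.TOP.InThetaGood3

set_option autoImplicit false
set_option linter.unusedSectionVars false
set_option linter.unusedVariables false
set_option linter.style.longLine false

open WeierstrassCurve WeierstrassCurve.Affine WeierstrassCurve.Affine.Point

namespace Fermat.Agent.MS.TOP.InThetaBad2

open Fermat.Agent.MS.STEP.StepAlg8 Fermat.Agent.MS.STEP.CofStep8 Fermat.Agent.MS.STEP.Assemble8
  Fermat.Agent.MS.GLUE.FreyPts4 Fermat.Agent.S05 Fermat.Agent.S05.FreyTransport Fermat.Agent.S13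
  Fermat.Agent.MS.LOCP

local notation "Qbar" => AlgebraicClosure ℚ
local notation "GQ" => (AlgebraicClosure ℚ ≃ₐ[ℚ] AlgebraicClosure ℚ)

/-! ### the abstract glue -/

section Glue

variable (P : FreyPackage)

theorem intModel_Δ_ne_zero : ((QC P.freyCurveInt)⁄Qbar).Δ ≠ 0 := by
  have h : QC P.freyCurveInt = P.freyCurve := Fermat.Agent.MS.LOC.FreyInt2.map_freyCurveInt P
  rw [h]
  exact frey_Δ_ne_zero P

/-- **the glue**: a subgroup `F` of the points of the Frey curve which receives the zero component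
(bridge), receives `(σ - 1) E[p^(k+1)]` (closeness) and misses a point of order `p`, forces
`σ • x - x ∈ D.next C'` as soon as `D.next C'` lies in the zero component. -/
theorem thetaOut_of_F {k : ℕ} (D : CofG (QC P.freyCurveInt) P.p k) (hk : 1 ≤ k)
    (C' : Submodule (ZMod P.p) D.V) (hcompl : IsCompl D.C C')
    {A : ValuationSubring Qbar} {σ : GQ} (F : AddSubgroup (P.freyCurve⁄Qbar).Point)
    (hbridge : ∀ Q : (P.freyCurve⁄Qbar).Point,
      P.freyCurveInt.InZeroComponentAt A (toInt P Q) → Q ∈ F)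
    (hclose : ∀ Q : (P.freyCurve⁄Qbar).Point, P.p ^ (k + 1) • Q = 0 → σ • Q - Q ∈ F)
    (hnot : ∃ Q : (P.freyCurve⁄Qbar).Point, P.p • Q = 0 ∧ Q ∉ F)
    (hcan : ∀ x ∈ D.next C', P.freyCurveInt.InZeroComponentAt A x)
    (x : EPtG (QC P.freyCurveInt)) (hx : P.p ^ (k + 1) • x = 0) :
    σ • x - x ∈ D.next C' := by
  have hp : P.p.Prime := P.pp
  have hΔ := intModel_Δ_ne_zero P
  have h3 : 3 ≤ P.p := frey_three_le P
  have hcardp := card_tors_pG (QC P.freyCurveInt) P.p hΔ h3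
  obtain ⟨y, hy, hKeq, hord⟩ := D.exists_gen_next hcardp (exists_div_of_mem_KG hΔ h3 D) C' hp hk
    hcompl
  -- transport `F` to the integral model
  set F' : AddSubgroup (EPtG (QC P.freyCurveInt)) := F.map (toInt P).toAddMonoidHom with hF'
  have hmem : ∀ z : EPtG (QC P.freyCurveInt), (toInt P).symm z ∈ F → z ∈ F' := by
    intro z hz
    exact ⟨(toInt P).symm z, hz, (toInt P).apply_symm_apply z⟩
  have hyF : y ∈ F' := by
    apply hmem
    apply hbridge
    rw [(toInt P).apply_symm_apply]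
    apply hcan
    rw [hKeq]
    exact AddSubgroup.mem_zmultiples y
  have hxF : σ • x - x ∈ F' := by
    apply hmem
    rw [map_sub, toInt_symm_smul]
    apply hclose
    rw [← map_nsmul, hx, _root_.map_zero]
  have hnot' : ∃ Q : EPtG (QC P.freyCurveInt), P.p • Q = 0 ∧ Q ∉ F' := by
    obtain ⟨Q, hQ, hQF⟩ := hnot
    refine ⟨toInt P Q, by rw [← toInt_nsmul, hQ, _root_.map_zero], ?_⟩
    rintro ⟨Q', hQ', e⟩
    have : Q' = Q := (toInt P).injective e
    exact hQF (this ▸ hQ')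
  have hxk : P.p ^ (k + 1) • (σ • x - x) = 0 := by
    have e : P.p ^ (k + 1) • (σ • x) = σ • (P.p ^ (k + 1) • x) := (gsmul_nsmul σ _ x).symm
    have e0 : σ • (0 : EPtG (QC P.freyCurveInt)) = 0 := rfl
    rw [nsmul_sub, e, hx, e0, sub_zero]
  rw [hKeq]
  exact CycSub2.mem_zmultiples_of_mem hp (by omega) hord hyF hnot' hcardp hxF hxk

end Glue

/-! ### the place over `2` -/

section Two

variable (P : FreyPackage) {A : ValuationSubring Qbar}

/-- the coefficients of `P.freyCurve⁄ℚ̄` are the casts of those of the integral model. -/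
theorem coeff_cast :
    (P.freyCurve⁄Qbar).a₁ = (P.freyCurveInt.a₁ : Qbar) ∧
    (P.freyCurve⁄Qbar).a₂ = (P.freyCurveInt.a₂ : Qbar) ∧
    (P.freyCurve⁄Qbar).a₃ = (P.freyCurveInt.a₃ : Qbar) ∧
    (P.freyCurve⁄Qbar).a₄ = (P.freyCurveInt.a₄ : Qbar) := by
  rw [← Fermat.Agent.MS.LOC.FreyInt2.map_freyCurveInt P]
  simp [WeierstrassCurve.baseChange]

/-- **`InZeroComponentAt ⟹ E⁰`** at a place over `2` (the Frey curve itself has node shape). -/
theorem one_le_of_inZero_two (hA : A.LiesOverPrime 2) {x y : Qbar}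
    (h : (P.freyCurve⁄Qbar).Nonsingular x y)
    (hz : P.freyCurveInt.InZeroComponentAt A (toInt P (Point.some x y h))) :
    1 ≤ A.valuation x := by
  by_contra hcon
  have hX : A.valuation x < 1 := not_le.mp hcon
  have hW := FreyAtTwo.nodeShape (K := Qbar) P hA
  obtain ⟨h', e⟩ := toInt_some P h
  rw [e] at hz
  rcases BridgeZero2.inZero_some_cases P.freyCurveInt A hz with hnot | ⟨hx, hy, hns⟩
  · exact hnot ((A.valuation_le_one_iff x).mp hX.le)
  have hyA : A.valuation y ≤ 1 := (A.valuation_le_one_iff y).mpr hy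
  have h2 : A.valuation (2 : Qbar) ≤ 1 := by
    exact_mod_cast Inertia.valuation_natCast_le_one (A := A) 2
  have h3 : A.valuation (3 : Qbar) ≤ 1 := by
    exact_mod_cast Inertia.valuation_natCast_le_one (A := A) 3
  obtain ⟨p1, p2⟩ := BridgeZero2.node_partials_lt hW h2 h3 h.1 hX hyA
  obtain ⟨c1, c2, c3, c4⟩ := coeff_cast P
  rw [c1, c2, c4] at p1
  rw [c1, c3] at p2
  rcases BridgeZero2.unit_partial_of_nonsingular_residue P.freyCurveInt A hx hy hns with hu | hu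
  · rw [hu] at p1; exact lt_irrefl _ p1
  · rw [hu] at p2; exact lt_irrefl _ p2

/-- the valuation-theoretic zero component of the Frey curve at a place over `2`. -/
noncomputable def E0two (hA : A.LiesOverPrime 2) : AddSubgroup (P.freyCurve⁄Qbar).Point where
  carrier := {Q | Node.InE0 A.valuation Q}
  zero_mem' := Node.inE0_zero
  add_mem' := fun hQ hR => Node.inE0_add (FreyAtTwo.nodeShape (K := Qbar) P hA) hQ hR
  neg_mem' := fun hQ => Node.inE0_neg hQ

theorem mem_E0two (hA : A.LiesOverPrime 2) (Q : (P.freyCurve⁄Qbar).Point) :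
    Q ∈ E0two P hA ↔ Node.InE0 A.valuation Q := Iff.rfl

/-- **the local package at a place over `2`.** -/
theorem exists_F_two (hA : A.LiesOverPrime 2) :
    ∃ F : AddSubgroup (P.freyCurve⁄Qbar).Point,
      (∀ Q : (P.freyCurve⁄Qbar).Point,
        P.freyCurveInt.InZeroComponentAt A (toInt P Q) → Q ∈ F) ∧
      (∀ σ ∈ A.inertiaSubgroupIn ℚ, ∀ (Q : (P.freyCurve⁄Qbar).Point) (m : ℕ), Odd m →
        m • Q = 0 → σ • Q - Q ∈ F) ∧
      ∃ Q : (P.freyCurve⁄Qbar).Point, P.p • Q = 0 ∧ Q ∉ F := by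
  have hW := FreyAtTwo.nodeShape (K := Qbar) P hA
  refine ⟨E0two P hA, ?_, ?_, ?_⟩
  · intro Q hz
    rcases Q with _ | ⟨x, y, h⟩
    · exact (E0two P hA).zero_mem
    · rw [mem_E0two, Node.inE0_some]
      exact one_le_of_inZero_two P hA h hz
  · intro σ hσ Q m hm hQ
    exact Fermat.Agent.MS.LOC.NodeUnipQ2.inE0_smul_sub P.freyCurve hW hσ hm Q hQ
  · obtain ⟨j, hj⟩ := P.hp_odd
    have hp2 : (2 : ℕ) ≠ P.p := by have := P.hp5; omega
    have hvp : A.valuation ((2 * j + 1 : ℕ) : Qbar) = 1 := by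
      rw [← hj]
      exact Inertia.valuation_prime_eq_one Nat.prime_two hA P.pp hp2
    have hn0 : ((2 * j + 1 : ℕ) : Qbar) ≠ 0 := by
      have : (2 * j + 1 : ℕ) ≠ 0 := by omega
      exact_mod_cast this
    have hj1 : j * (j + 1) ≠ 0 := by
      have := P.hp5
      have : 1 ≤ j := by omega
      positivity
    obtain ⟨X, Y, h, hn, hv⟩ := TorsNode2.exists_torsion_val_lt_one A.valuation
      (W := (P.freyCurve⁄Qbar)) hW.a₃ hW.a₆ (frey_Δ_ne_zero P) hn0
      (by rw [hvp]; exact pow_lt_one₀ zero_le hW.a₄ hj1)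
    refine ⟨Point.some X Y h, by rw [hj]; exact hn, ?_⟩
    rw [mem_E0two, Node.inE0_some]
    exact not_le.mpr hv

end Two

/-! ### the places over an odd prime `q ∣ abc`, `q ≠ p` -/

section Odd

variable (P : FreyPackage) {A : ValuationSubring Qbar}

/-- **the local package at a place over an odd prime `q ≠ p` dividing `abc`.** -/
theorem exists_F_odd {q : ℕ} (hq : q.Prime) (hq2 : q ≠ 2) (hqp : q ≠ P.p)
    (hA : A.LiesOverPrime q) (hmult : (q : ℤ) ∣ P.a * P.b ∨ (q : ℤ) ∣ P.c) :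
    ∃ F : AddSubgroup (P.freyCurve⁄Qbar).Point,
      (∀ Q : (P.freyCurve⁄Qbar).Point,
        P.freyCurveInt.InZeroComponentAt A (toInt P Q) → Q ∈ F) ∧
      (∀ σ ∈ A.inertiaSubgroupIn ℚ, ∀ (Q : (P.freyCurve⁄Qbar).Point) (m : ℕ), Odd m →
        m • Q = 0 → σ • Q - Q ∈ F) ∧
      ∃ Q : (P.freyCurve⁄Qbar).Point, P.p • Q = 0 ∧ Q ∉ F := by
  have hv : FreyArith.LiesOver A.valuation q :=
    ⟨Inertia.valuation_intCast_le_one, Inertia.valuation_intCast_lt_one_iff hq hA⟩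
  have h2 : A.valuation (2 : Qbar) = 1 := Inertia.valuation_two_eq_one hq hA hq2
  have h3 : A.valuation (3 : Qbar) ≤ 1 := by
    exact_mod_cast Inertia.valuation_natCast_le_one (A := A) 3
  have hcA : (cA P : Qbar) = (P.a : Qbar) ^ P.p := rfl
  have hcB : (cB P : Qbar) = (P.b : Qbar) ^ P.p := rfl
  obtain ⟨j, hj⟩ := P.hp_odd
  have hvp : A.valuation ((2 * j + 1 : ℕ) : Qbar) = 1 := by
    rw [← hj]
    exact Inertia.valuation_prime_eq_one hq hA P.pp hqp
  have hj1 : j * (j + 1) ≠ 0 := by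
    have := P.hp5
    have : 1 ≤ j := by omega
    positivity
  have hcc : (P.c : Qbar) ^ P.p = (P.a : Qbar) ^ P.p + (P.b : Qbar) ^ P.p :=
    FreyArith.c_pow_eq_cast P
  have ha0 : (P.a : Qbar) ≠ 0 := Int.cast_ne_zero.mpr P.ha0
  have hb0' : (P.b : Qbar) ≠ 0 := Int.cast_ne_zero.mpr P.hb0
  have hc0 : (P.c : Qbar) ≠ 0 := Int.cast_ne_zero.mpr P.hc0
  rcases hmult with hab | hc
  · -- `q ∣ ab`
    obtain ⟨g1, g2, g3⟩ := FreyArith.mult_ab_val P hv hq hab
    have hb0 : -((P.a : Qbar) ^ P.p * (P.b : Qbar) ^ P.p) ≠ 0 := by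
      rw [← mul_pow]
      exact neg_ne_zero.mpr (pow_ne_zero _ (FreyArith.ab_ne_zero P))
    have hblt : A.valuation (-((P.a : Qbar) ^ P.p * (P.b : Qbar) ^ P.p)) < 1 := by
      rw [g2]; exact pow_lt_one₀ zero_le g3 P.hp0
    have hW := FreyAtP2.nodeShape_Wab A.valuation h2 g1 hblt hb0
    have hΔ : (Wab ((P.b : Qbar) ^ P.p - (P.a : Qbar) ^ P.p)
        (-((P.a : Qbar) ^ P.p * (P.b : Qbar) ^ P.p))).Δ ≠ 0 := by
      rw [FreyAtP2.Δ_Wab]
      have e : ((P.b : Qbar) ^ P.p - (P.a : Qbar) ^ P.p) ^ 2 -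
          4 * -((P.a : Qbar) ^ P.p * (P.b : Qbar) ^ P.p) = ((P.c : Qbar) ^ P.p) ^ 2 := by
        rw [hcc]; ring
      rw [e]
      exact mul_ne_zero (mul_ne_zero (by norm_num) (pow_ne_zero _ hb0))
        (pow_ne_zero _ (pow_ne_zero _ hc0))
    have ht : (0 : Qbar) * (0 - cA P) * (0 + cB P) = 0 := by ring
    have ha' : (P.b : Qbar) ^ P.p - (P.a : Qbar) ^ P.p = 3 * 0 + cB P - cA P := by
      rw [hcA, hcB]; ring
    have hb' : -((P.a : Qbar) ^ P.p * (P.b : Qbar) ^ P.p) =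
        3 * (0 : Qbar) ^ 2 + 2 * (cB P - cA P) * 0 - cA P * cB P := by
      rw [hcA, hcB]; ring
    have hvt : A.valuation (0 : Qbar) ≤ 1 := by
      rw [_root_.map_zero]; exact zero_le_one
    refine ⟨FreyAtP2.E0sub P ht ha' hb' hW,
      fun Q hz => BridgeZero2.mem_E0sub_of_inZero P ht ha' hb' hW h2 h3 hvt Q hz,
      fun σ hσ Q m hm hQ =>
        FreyAtP2.smul_sub_mem_E0sub P ht ha' hb' hW hσ (_root_.map_zero σ) hm Q hQ,
      ?_⟩
    obtain ⟨Q, hQ, hQF⟩ := FreyAtP2.exists_torsion_not_mem_E0sub P ht ha' hb' hW hΔ (j := j)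
      (by rw [hvp]; exact pow_lt_one₀ zero_le hblt hj1)
    exact ⟨Q, by rw [hj]; exact hQ, hQF⟩
  · -- `q ∣ c`
    obtain ⟨g1, g2, g3⟩ := FreyArith.mult_c_val P hv hq hc
    have hb0 : (P.a : Qbar) ^ P.p * (P.c : Qbar) ^ P.p ≠ 0 := by
      rw [← mul_pow]
      exact pow_ne_zero _ (FreyArith.ac_ne_zero P)
    have hblt : A.valuation ((P.a : Qbar) ^ P.p * (P.c : Qbar) ^ P.p) < 1 := by
      rw [g2]; exact pow_lt_one₀ zero_le g3 P.hp0
    have hW := FreyAtP2.nodeShape_Wab A.valuation h2 g1 hblt hb0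
    have hΔ : (Wab ((P.a : Qbar) ^ P.p + (P.c : Qbar) ^ P.p)
        ((P.a : Qbar) ^ P.p * (P.c : Qbar) ^ P.p)).Δ ≠ 0 := by
      rw [FreyAtP2.Δ_Wab]
      have e : ((P.a : Qbar) ^ P.p + (P.c : Qbar) ^ P.p) ^ 2 -
          4 * ((P.a : Qbar) ^ P.p * (P.c : Qbar) ^ P.p) = ((P.b : Qbar) ^ P.p) ^ 2 := by
        rw [hcc]; ring
      rw [e]
      exact mul_ne_zero (mul_ne_zero (by norm_num) (pow_ne_zero _ hb0))
        (pow_ne_zero _ (pow_ne_zero _ hb0'))
    have ht : ((P.a : Qbar) ^ P.p) * ((P.a : Qbar) ^ P.p - cA P) *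
        ((P.a : Qbar) ^ P.p + cB P) = 0 := by rw [hcA]; ring
    have ha' : (P.a : Qbar) ^ P.p + (P.c : Qbar) ^ P.p =
        3 * (P.a : Qbar) ^ P.p + cB P - cA P := by
      rw [hcA, hcB, hcc]; ring
    have hb' : (P.a : Qbar) ^ P.p * (P.c : Qbar) ^ P.p =
        3 * ((P.a : Qbar) ^ P.p) ^ 2 + 2 * (cB P - cA P) * (P.a : Qbar) ^ P.p - cA P * cB P := by
      rw [hcA, hcB, hcc]; ring
    have hσt : ∀ σ : Qbar ≃ₐ[ℚ] Qbar, σ ((P.a : Qbar) ^ P.p) = (P.a : Qbar) ^ P.p := by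
      intro σ; simp
    have hvt : A.valuation ((P.a : Qbar) ^ P.p) ≤ 1 := by
      rw [map_pow]; exact pow_le_one₀ zero_le (Inertia.valuation_intCast_le_one _)
    refine ⟨FreyAtP2.E0sub P ht ha' hb' hW,
      fun Q hz => BridgeZero2.mem_E0sub_of_inZero P ht ha' hb' hW h2 h3 hvt Q hz,
      fun σ hσ Q m hm hQ =>
        FreyAtP2.smul_sub_mem_E0sub P ht ha' hb' hW hσ (hσt σ) hm Q hQ,
      ?_⟩
    obtain ⟨Q, hQ, hQF⟩ := FreyAtP2.exists_torsion_not_mem_E0sub P ht ha' hb' hW hΔ (j := j)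
      (by rw [hvp]; exact pow_lt_one₀ zero_le hblt hj1)
    exact ⟨Q, by rw [hj]; exact hQ, hQF⟩

end Odd

/-! ### the bad-`q` half of `ThetaOutProp` -/

section Main

variable (P : FreyPackage)

/-- the local package at any bad place away from `p`. -/
theorem exists_F_bad {q : ℕ} (hq : q.Prime) (hqp : q ≠ P.p) (hΔ : (q : ℤ) ∣ P.freyCurveInt.Δ)
    {A : ValuationSubring Qbar} (hA : A.LiesOverPrime q) :
    ∃ F : AddSubgroup (P.freyCurve⁄Qbar).Point,
      (∀ Q : (P.freyCurve⁄Qbar).Point,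
        P.freyCurveInt.InZeroComponentAt A (toInt P Q) → Q ∈ F) ∧
      (∀ σ ∈ A.inertiaSubgroupIn ℚ, ∀ (Q : (P.freyCurve⁄Qbar).Point) (m : ℕ), Odd m →
        m • Q = 0 → σ • Q - Q ∈ F) ∧
      ∃ Q : (P.freyCurve⁄Qbar).Point, P.p • Q = 0 ∧ Q ∉ F := by
  by_cases hq2 : q = 2
  · subst hq2
    exact exists_F_two P hA
  · have habc := Fermat.Agent.MS.LOC.FreyInt2.dvd_abc_of_dvd_Δ P hq hΔ
    have hpr : Prime (q : ℤ) := Nat.prime_iff_prime_int.mp hq
    rcases hpr.dvd_or_dvd habc with hab | hc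
    · exact exists_F_odd P hq hq2 hqp hA (Or.inl hab)
    · exact exists_F_odd P hq hq2 hqp hA (Or.inr hc)

/-- **the bad-`q` instances of `ThetaOutProp P.freyCurveInt P.p`** (the hypothesis `hbad` of
`InThetaGood3.thetaOutProp_frey_of_bad`). -/
theorem thetaOut_bad :
    ∀ (k : ℕ) (D : CofG (QC P.freyCurveInt) P.p k), 1 ≤ k →
      ∀ C' : Submodule (ZMod P.p) D.V,
      (∀ σ : GQ, ∀ v ∈ C', σ • v ∈ C') → IsCompl D.C C' →
      CanAtK P.freyCurveInt P.p (D.next C') →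
      ∀ q : ℕ, q.Prime → q ≠ P.p → (q : ℤ) ∣ P.freyCurveInt.Δ →
      ∀ A : ValuationSubring Qbar, A.LiesOverPrime q →
        ∀ σ ∈ A.inertiaSubgroupIn ℚ, ∀ x : EPtG (QC P.freyCurveInt), P.p ^ (k + 1) • x = 0 →
          σ • x - x ∈ D.next C' := by
  intro k D hk C' _ hcompl hcan q hq hqp hΔ A hA σ hσ x hx
  obtain ⟨F, hbridge, hclose, hnot⟩ := exists_F_bad P hq hqp hΔ hA
  exact thetaOut_of_F P D hk C' hcompl F hbridge
    (fun Q hQ => hclose σ hσ Q _ (P.hp_odd.pow) hQ) hnot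
    (fun z hz => hcan q hq hqp hΔ A hA z hz) x hx

/-- **`ThetaOutProp` for the Frey curve** (input `hTo` of `S12Wire8.s12_of_four`). -/
theorem thetaOutProp : ThetaOutProp P.freyCurveInt P.p :=
  Fermat.Agent.MS.TOP.InThetaGood3.thetaOutProp_frey_of_bad P (thetaOut_bad P)

end Main

end Fermat.Agent.MS.TOP.InThetaBad2
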